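import Mathlib
import Fermat.Agent.S16.WT.Defs

/-!
# S16 / E-UB3 (U3-b): level-one forms with integer coefficients are polynomials in `Δ` mod 3

* `DeltaZ : ℤ⟦X⟧` : the integer `q`-expansion of the discriminant, characterised by
  `1728 * DeltaZ = Qz ^ 3 - Rz ^ 2` (`DeltaZ_spec`) and compared with the analytic `q`-expansion
  in `map_DeltaZ`.
* `exists_div_DeltaZ` : the integral division step: a level-one form of weight `4 a + 6 b` with
  integer `q`-expansion `f` is `a₀ Qz ^ a Rz ^ b + DeltaZ * h` with `h` the integer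
  `q`-expansion of a level-one form of weight `k - 12`.
* `exists_poly_mod_three` : the reduction mod `3` of the integer `q`-expansion of a level-one
  form is a polynomial in the reduction of `DeltaZ`.
-/

set_option autoImplicit false

open UpperHalfPlane ModularForm ModularFormClass MatrixGroups EisensteinSeries
open scoped ArithmeticFunction.sigma

namespace Fermat.Agent.S16.UB3.LevelOneMod3

open PowerSeries Fermat.Agent.S16.WT

/-! ### The integer `q`-expansion of `Δ` -/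

theorem twelve_dvd_pow (d : ℤ) : (12 : ℤ) ∣ 5 * d ^ 3 + 7 * d ^ 5 := by
  have h : ∀ x : ZMod 12, 5 * x ^ 3 + 7 * x ^ 5 = 0 := by decide
  have := h (d : ZMod 12)
  have h2 : ((5 * d ^ 3 + 7 * d ^ 5 : ℤ) : ZMod 12) = 0 := by
    push_cast
    exact this
  exact_mod_cast (ZMod.intCast_zmod_eq_zero_iff_dvd _ 12).mp h2

theorem twelve_dvd_sigma (n : ℕ) : (12 : ℤ) ∣ 5 * (σ 3 n : ℤ) + 7 * (σ 5 n : ℤ) := by
  rw [ArithmeticFunction.sigma_apply, ArithmeticFunction.sigma_apply]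
  push_cast
  rw [Finset.mul_sum, Finset.mul_sum, ← Finset.sum_add_distrib]
  exact Finset.dvd_sum fun d _ => twelve_dvd_pow d

/-- `∑ σ₃(n) qⁿ`. -/
noncomputable def S3z : ℤ⟦X⟧ := PowerSeries.mk fun n => (σ 3 n : ℤ)
/-- `∑ σ₅(n) qⁿ`. -/
noncomputable def S5z : ℤ⟦X⟧ := PowerSeries.mk fun n => (σ 5 n : ℤ)
/-- `∑ (5 σ₃(n) + 7 σ₅(n)) / 12 qⁿ`. -/
noncomputable def Lz : ℤ⟦X⟧ := PowerSeries.mk fun n => (5 * (σ 3 n : ℤ) + 7 * (σ 5 n : ℤ)) / 12

theorem Qz_eq : Qz = 1 + C (240 : ℤ) * S3z := by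
  ext n
  rw [coeff_Qz, map_add, coeff_C_mul, S3z, coeff_mk, coeff_one]
  split_ifs with h
  · subst h; simp
  · simp

theorem Rz_eq : Rz = 1 - C (504 : ℤ) * S5z := by
  ext n
  rw [coeff_Rz, map_sub, coeff_C_mul, S5z, coeff_mk, coeff_one]
  split_ifs with h
  · subst h; simp
  · simp

theorem Lz_spec : C (12 : ℤ) * Lz = C (5 : ℤ) * S3z + C (7 : ℤ) * S5z := by
  ext n
  rw [map_add, coeff_C_mul, coeff_C_mul, coeff_C_mul, Lz, S3z, S5z, coeff_mk, coeff_mk, coeff_mk]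
  exact Int.mul_ediv_cancel' (twelve_dvd_sigma n)

/-- The integer `q`-expansion of the discriminant `Δ`. -/
noncomputable def DeltaZ : ℤ⟦X⟧ :=
  Lz + C (100 : ℤ) * S3z ^ 2 + C (8000 : ℤ) * S3z ^ 3 - C (147 : ℤ) * S5z ^ 2

theorem DeltaZ_spec' : C (1728 : ℤ) * DeltaZ = Qz ^ 3 - Rz ^ 2 := by
  have h := Lz_spec
  have e1 : C (1728 : ℤ) = (1728 : ℤ⟦X⟧) := map_ofNat (C (R := ℤ)) 1728
  have e2 : C (12 : ℤ) = (12 : ℤ⟦X⟧) := map_ofNat (C (R := ℤ)) 12
  have e3 : C (5 : ℤ) = (5 : ℤ⟦X⟧) := map_ofNat (C (R := ℤ)) 5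
  have e4 : C (7 : ℤ) = (7 : ℤ⟦X⟧) := map_ofNat (C (R := ℤ)) 7
  have e5 : C (240 : ℤ) = (240 : ℤ⟦X⟧) := map_ofNat (C (R := ℤ)) 240
  have e6 : C (504 : ℤ) = (504 : ℤ⟦X⟧) := map_ofNat (C (R := ℤ)) 504
  have e7 : C (100 : ℤ) = (100 : ℤ⟦X⟧) := map_ofNat (C (R := ℤ)) 100
  have e8 : C (8000 : ℤ) = (8000 : ℤ⟦X⟧) := map_ofNat (C (R := ℤ)) 8000
  have e9 : C (147 : ℤ) = (147 : ℤ⟦X⟧) := map_ofNat (C (R := ℤ)) 147
  rw [Qz_eq, Rz_eq, DeltaZ]
  rw [e2, e3, e4] at h
  rw [e1, e5, e6, e7, e8, e9]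
  linear_combination 144 * h

/-- `1728 Δ = E₄³ - E₆²` for the integer `q`-expansions. -/
theorem DeltaZ_spec : (1728 : ℤ⟦X⟧) * DeltaZ = Qz ^ 3 - Rz ^ 2 := by
  rw [← DeltaZ_spec', map_ofNat]

/-! ### Comparison with the analytic discriminant -/

theorem qExpansion_discriminant_spec :
    (1728 : ℂ⟦X⟧) * qExpansion 1 ModularForm.discriminant
      = qExpansion 1 E₄ ^ 3 - qExpansion 1 E₆ ^ 2 := by
  set G : ModularForm 𝒮ℒ 12 :=
    ModularForm.mcast (by decide) (E₄.pow 3) - ModularForm.mcast (by decide) (E₆.pow 2) with hG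
  have hGq : qExpansion 1 G = qExpansion 1 E₄ ^ 3 - qExpansion 1 E₆ ^ 2 := by
    simp only [hG, FunLike.coe_sub, coe_mcast,
      ModularForm.qExpansion_sub one_pos one_mem_strictPeriods_SL,
      ModularForm.qExpansion_pow one_pos one_mem_strictPeriods_SL]
  have hGΔ : (G : ℍ → ℂ) = ((1728 : ℂ) • CuspForm.discriminant : CuspForm 𝒮ℒ 12) := by
    ext z
    have := discriminant_eq_E₄_cube_sub_E₆_sq z
    simp only [hG, coe_mcast, ModularForm.coe_pow, sub_apply, Pi.pow_apply]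
    change _ = (1728 : ℂ) * ModularForm.discriminant z
    rw [this]; ring
  have h2 := ModularForm.qExpansion_smul one_pos one_mem_strictPeriods_SL (1728 : ℂ)
      CuspForm.discriminant
  rw [← hGq, hGΔ]
  erw [h2]
  rw [CuspForm.coe_discriminant]
  ext n
  rw [PowerSeries.coeff_smul, ← map_ofNat (C (R := ℂ)) 1728, coeff_C_mul, smul_eq_mul]

theorem map_DeltaZ :
    DeltaZ.map (Int.castRingHom ℂ) = qExpansion 1 ModularForm.discriminant := by
  have h1 : (1728 : ℂ⟦X⟧) * DeltaZ.map (Int.castRingHom ℂ)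
      = (1728 : ℂ⟦X⟧) * qExpansion 1 ModularForm.discriminant := by
    rw [qExpansion_discriminant_spec, ← map_Qz, ← map_Rz, ← map_pow, ← map_pow, ← map_sub,
      ← DeltaZ_spec, map_mul, map_ofNat]
  have h0 : (1728 : ℂ⟦X⟧) ≠ 0 := by
    rw [← map_ofNat (C (R := ℂ)) 1728]
    intro h
    have := congrArg (constantCoeff (R := ℂ)) h
    simp at this
  exact mul_left_cancel₀ h0 h1

theorem constantCoeff_DeltaZ : constantCoeff DeltaZ = 0 := by
  have h := congrArg (coeff 0) map_DeltaZ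
  rw [coeff_map] at h
  have h2 : (qExpansion 1 ModularForm.discriminant).coeff 0 = 0 := by
    simpa using CuspFormClass.qExpansion_coeff_zero CuspForm.discriminant one_pos
      one_mem_strictPeriods_SL
  rw [h2, eq_intCast] at h
  rw [← coeff_zero_eq_constantCoeff_apply]
  exact_mod_cast h

theorem coeff_one_DeltaZ : coeff 1 DeltaZ = 1 := by
  have h := congrArg (coeff 1) map_DeltaZ
  rw [coeff_map, discriminant_qExpansion_coeff_one, eq_intCast] at h
  exact_mod_cast h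

/-- `DeltaZ = X * (unit)`. -/
theorem exists_unit_DeltaZ : ∃ u : ℤ⟦X⟧ˣ, DeltaZ = X * (u : ℤ⟦X⟧) := by
  obtain ⟨w, hw⟩ := (X_dvd_iff (φ := DeltaZ)).mpr constantCoeff_DeltaZ
  have h1 : constantCoeff w = 1 := by
    have := coeff_one_DeltaZ
    rw [hw, show (1 : ℕ) = 0 + 1 from rfl, coeff_succ_X_mul] at this
    simpa using this
  have hu : IsUnit w := by
    rw [isUnit_iff_constantCoeff, h1]
    exact isUnit_one
  exact ⟨hu.unit, by rw [hw]; rfl⟩

/-! ### Eisenstein monomials and the integral division step -/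

/-- `E₄ ^ a * E₆ ^ b` as a level-one form of weight `k = 4 a + 6 b`. -/
noncomputable def eisMono (a b : ℕ) (k : ℤ) (hk : k = 4 * a + 6 * b) : ModularForm 𝒮ℒ k :=
  ModularForm.mcast (by rw [hk]; ring) ((E₄.pow a).mul (E₆.pow b))

theorem qExpansion_eisMono (a b : ℕ) (k : ℤ) (hk : k = 4 * a + 6 * b) :
    qExpansion 1 (eisMono a b k hk) = qExpansion 1 E₄ ^ a * qExpansion 1 E₆ ^ b := by
  simp only [eisMono, ModularForm.qExpansion_mcast,
    ModularForm.qExpansion_mul one_pos one_mem_strictPeriods_SL,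
    ModularForm.qExpansion_pow one_pos one_mem_strictPeriods_SL]

theorem map_eisMono (a b : ℕ) (k : ℤ) (hk : k = 4 * a + 6 * b) :
    (Qz ^ a * Rz ^ b).map (Int.castRingHom ℂ) = qExpansion 1 (eisMono a b k hk) := by
  rw [qExpansion_eisMono, map_mul, map_pow, map_pow, map_Qz, map_Rz]

theorem map_intCast_injective :
    Function.Injective (PowerSeries.map (Int.castRingHom ℂ)) := by
  intro f g h
  ext n
  have := congrArg (coeff n) h
  rw [coeff_map, coeff_map, eq_intCast, eq_intCast] at this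
  exact_mod_cast this

theorem map_DeltaZ_ne_zero : DeltaZ.map (Int.castRingHom ℂ) ≠ 0 := by
  intro h
  have := congrArg (coeff 1) h
  rw [coeff_map, coeff_one_DeltaZ] at this
  simp at this

/-- The integral division step. -/
theorem exists_div_DeltaZ {k : ℤ} (a b : ℕ) (hk : k = 4 * a + 6 * b) (F : ModularForm 𝒮ℒ k)
    (f : ℤ⟦X⟧) (hf : f.map (Int.castRingHom ℂ) = qExpansion 1 F) :
    ∃ (H : ModularForm 𝒮ℒ (k - 12)) (h : ℤ⟦X⟧),
      h.map (Int.castRingHom ℂ) = qExpansion 1 H ∧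
      f = C (constantCoeff f) * (Qz ^ a * Rz ^ b) + DeltaZ * h := by
  set a0 : ℤ := constantCoeff f with ha0
  set G : ModularForm 𝒮ℒ k := eisMono a b k hk with hG
  set F' : ModularForm 𝒮ℒ k := F - (a0 : ℂ) • G with hF'
  set f' : ℤ⟦X⟧ := f - C a0 * (Qz ^ a * Rz ^ b) with hf'
  have hqF' : qExpansion 1 F' = f'.map (Int.castRingHom ℂ) := by
    rw [hF', FunLike.coe_sub, ModularForm.qExpansion_sub one_pos one_mem_strictPeriods_SL,
      FunLike.coe_smul, ModularForm.qExpansion_smul one_pos one_mem_strictPeriods_SL, hf', map_sub,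
      map_mul, hf, map_eisMono a b k hk, PowerSeries.map_C, smul_eq_C_mul, eq_intCast]
  have hc0 : constantCoeff f' = 0 := by
    rw [hf', map_sub, map_mul, map_mul, map_pow, map_pow, constantCoeff_Qz, constantCoeff_Rz,
      constantCoeff_C]
    simp [ha0]
  have hcusp : (qExpansion 1 F').coeff 0 = 0 := by
    rw [hqF', coeff_map, coeff_zero_eq_constantCoeff_apply, hc0, map_zero]
  have key := qExpansion_eq_qExpansion_discriminant_mul F' hcusp
  obtain ⟨w, hw⟩ := (X_dvd_iff (φ := f')).mpr hc0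
  obtain ⟨u, hu⟩ := exists_unit_DeltaZ
  refine ⟨CuspForm.discriminantEquiv (toCuspForm F' hcusp), w * ((u⁻¹ : ℤ⟦X⟧ˣ) : ℤ⟦X⟧), ?_, ?_⟩
  · have hD : DeltaZ * (w * ((u⁻¹ : ℤ⟦X⟧ˣ) : ℤ⟦X⟧)) = f' := by
      rw [hw, hu]
      calc X * (u : ℤ⟦X⟧) * (w * ((u⁻¹ : ℤ⟦X⟧ˣ) : ℤ⟦X⟧))
          = X * w * ((u : ℤ⟦X⟧) * ((u⁻¹ : ℤ⟦X⟧ˣ) : ℤ⟦X⟧)) := by ring
        _ = X * w := by rw [Units.mul_inv, mul_one]
    have h1 : DeltaZ.map (Int.castRingHom ℂ) *
        (w * ((u⁻¹ : ℤ⟦X⟧ˣ) : ℤ⟦X⟧)).map (Int.castRingHom ℂ)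
        = DeltaZ.map (Int.castRingHom ℂ) *
          qExpansion 1 (CuspForm.discriminantEquiv (toCuspForm F' hcusp)) := by
      rw [← map_mul, hD, ← hqF', key, map_DeltaZ]
    exact mul_left_cancel₀ map_DeltaZ_ne_zero h1
  · have hD : DeltaZ * (w * ((u⁻¹ : ℤ⟦X⟧ˣ) : ℤ⟦X⟧)) = f' := by
      rw [hw, hu]
      calc X * (u : ℤ⟦X⟧) * (w * ((u⁻¹ : ℤ⟦X⟧ˣ) : ℤ⟦X⟧))
          = X * w * ((u : ℤ⟦X⟧) * ((u⁻¹ : ℤ⟦X⟧ˣ) : ℤ⟦X⟧)) := by ring
        _ = X * w := by rw [Units.mul_inv, mul_one]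
    rw [hD, hf']
    ring

/-! ### Reduction mod 3 -/

theorem map_Qz_zmod3 : Qz.map (Int.castRingHom (ZMod 3)) = 1 := by
  ext n
  rw [coeff_map, coeff_Qz, coeff_one]
  split_ifs with h
  · simp
  · rw [eq_intCast]
    push_cast
    rw [show (240 : ZMod 3) = 0 from by decide, zero_mul]

theorem map_Rz_zmod3 : Rz.map (Int.castRingHom (ZMod 3)) = 1 := by
  ext n
  rw [coeff_map, coeff_Rz, coeff_one]
  split_ifs with h
  · simp
  · rw [eq_intCast]
    push_cast
    rw [show (504 : ZMod 3) = 0 from by decide, neg_zero, zero_mul]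

/-- A vanishing form has vanishing integer `q`-expansion. -/
theorem eq_zero_of_coe_eq_zero {k : ℤ} (F : ModularForm 𝒮ℒ k) (f : ℤ⟦X⟧)
    (hf : f.map (Int.castRingHom ℂ) = qExpansion 1 F) (hF : (F : ℍ → ℂ) = 0) : f = 0 := by
  apply map_intCast_injective
  rw [hf, hF, qExpansion_zero, map_zero]

theorem exists_weights {k : ℤ} (h0 : 0 ≤ k) (hev : Even k) (h2 : k ≠ 2) :
    ∃ a b : ℕ, k = 4 * a + 6 * b := by
  obtain ⟨m, hm⟩ := hev
  obtain ⟨m', rfl⟩ := Int.eq_ofNat_of_zero_le (show 0 ≤ m by omega)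
  rcases Nat.even_or_odd m' with he | ho
  · obtain ⟨r, hr⟩ := he
    exact ⟨r, 0, by subst hr; push_cast at *; omega⟩
  · obtain ⟨r, hr⟩ := ho
    have hr1 : 1 ≤ r := by
      rcases r with _ | r
      · exfalso; apply h2; subst hr; subst hm; norm_num
      · omega
    exact ⟨r - 1, 1, by subst hr; push_cast at *; omega⟩

theorem exists_poly_mod_three_aux (n : ℕ) : ∀ (k : ℤ), k < 12 * n → ∀ (F : ModularForm 𝒮ℒ k)
    (f : ℤ⟦X⟧), f.map (Int.castRingHom ℂ) = qExpansion 1 F →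
    ∃ P : Polynomial (ZMod 3), f.map (Int.castRingHom (ZMod 3))
      = Polynomial.aeval (DeltaZ.map (Int.castRingHom (ZMod 3))) P := by
  induction n with
  | zero =>
    intro k hk F f hf
    have hF : (F : ℍ → ℂ) = 0 :=
      ModularFormClass.levelOne_neg_weight_eq_zero (by simpa using hk) F
    refine ⟨0, ?_⟩
    rw [eq_zero_of_coe_eq_zero F f hf hF, map_zero, map_zero]
  | succ n ih =>
    intro k hk F f hf
    have hzero : (F : ℍ → ℂ) = 0 → ∃ P : Polynomial (ZMod 3), f.map (Int.castRingHom (ZMod 3))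
        = Polynomial.aeval (DeltaZ.map (Int.castRingHom (ZMod 3))) P := by
      intro hF
      refine ⟨0, ?_⟩
      rw [eq_zero_of_coe_eq_zero F f hf hF, map_zero, map_zero]
    by_cases hneg : k < 0
    · exact hzero (ModularFormClass.levelOne_neg_weight_eq_zero hneg F)
    by_cases hodd : Odd k
    · exact hzero (by rw [ModularForm.levelOne_odd_weight_eq_zero hodd F]; rfl)
    by_cases h2 : k = 2
    · subst h2
      have : F = 0 := rank_zero_iff_forall_zero.mp levelOne_weight_two_rank_zero F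
      exact hzero (by rw [this]; rfl)
    obtain ⟨a, b, hab⟩ := exists_weights (not_lt.mp hneg) (Int.not_odd_iff_even.mp hodd) h2
    obtain ⟨H, h, hh, hfeq⟩ := exists_div_DeltaZ a b hab F f hf
    obtain ⟨P', hP'⟩ := ih (k - 12) (by push_cast at hk; linarith) H h hh
    refine ⟨Polynomial.C (Int.castRingHom (ZMod 3) (constantCoeff f)) + Polynomial.X * P', ?_⟩
    have := congrArg (PowerSeries.map (Int.castRingHom (ZMod 3))) hfeq
    rw [this, map_add, map_mul, map_mul, map_mul, map_pow, map_pow, map_Qz_zmod3, map_Rz_zmod3,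
      one_pow, one_pow, mul_one, mul_one, PowerSeries.map_C, hP', map_add, map_mul,
      Polynomial.aeval_X, Polynomial.aeval_C]
    rfl

/-- **(U3-b)** The reduction mod `3` of the integer `q`-expansion of a level-one modular form is
a polynomial in the reduction of `Δ`. -/
theorem exists_poly_mod_three {k : ℤ} (F : ModularForm 𝒮ℒ k) (f : ℤ⟦X⟧)
    (hf : f.map (Int.castRingHom ℂ) = qExpansion 1 F) :
    ∃ P : Polynomial (ZMod 3), f.map (Int.castRingHom (ZMod 3))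
      = Polynomial.aeval (DeltaZ.map (Int.castRingHom (ZMod 3))) P := by
  obtain ⟨n, hn⟩ : ∃ n : ℕ, k < 12 * n := by
    refine ⟨k.toNat + 1, ?_⟩
    have := Int.self_le_toNat k
    push_cast
    linarith
  exact exists_poly_mod_three_aux n k hn F f hf

end Fermat.Agent.S16.UB3.LevelOneMod3
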