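/-
PROJECT E (S16), slice E-UB3 (helper4), part (U3-a): `Δ ≡ s - s³ (mod 3)`.

Pure power-series algebra (Mathlib only).  `θ := X · d/dX`.

* `theta` and its derivation rules;
* `pow_card_eq_expand` : `f ^ p = f(X^p)` for `f ∈ (ZMod p)⟦X⟧`;
* `delta_formula` : from Ramanujan's identities `12 θP = P² - Q`, `3 θQ = PQ - R` and
  `1728 D = Q³ - R²` for `P = 1 - 24 s`, `Q = 1 + 240 S₃`, `R = 1 - 504 S₅` in `ℤ⟦X⟧`, the EXACT
  identity `D = -s² + 12 s θs + θ²s + 16 s³ + 100 S₃² + 8000 S₃³ - 147 S₅²`;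
* `delta_mod_three` : hence `D ≡ θ² s (mod 3)`;
* `sigmaSeries_sub_cube` : for `s = ∑ σ(n) Xⁿ` : `θ² s ≡ s - s³ (mod 3)`;
* `delta_eq_sub_cube` : `D ≡ s - s³ (mod 3)` (the Artin–Schreier relation).
-/
import Mathlib

set_option autoImplicit false

noncomputable section

namespace Fermat.Agent.S16.UB3.DeltaMod3

open PowerSeries

/-! ### The operator `θ = X d/dX` -/

section Theta

variable {R : Type*} [CommRing R]

/-- `θ f = X · f'`. -/
def theta (f : R⟦X⟧) : R⟦X⟧ := X * d⁄dX R f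

@[simp] lemma coeff_theta (f : R⟦X⟧) (n : ℕ) : coeff n (theta f) = (n : R) * coeff n f := by
  unfold theta
  cases n with
  | zero => simp
  | succ n =>
    rw [coeff_succ_X_mul, coeff_derivative]
    push_cast
    ring

lemma theta_add (f g : R⟦X⟧) : theta (f + g) = theta f + theta g := by
  unfold theta; rw [map_add, mul_add]

lemma theta_sub (f g : R⟦X⟧) : theta (f - g) = theta f - theta g := by
  unfold theta; rw [map_sub, mul_sub]

lemma theta_neg (f : R⟦X⟧) : theta (-f) = -theta f := by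
  unfold theta; rw [map_neg, mul_neg]

lemma theta_mul (f g : R⟦X⟧) : theta (f * g) = theta f * g + f * theta g := by
  unfold theta
  rw [Derivation.leibniz, smul_eq_mul, smul_eq_mul]
  ring

lemma theta_one : theta (1 : R⟦X⟧) = 0 := by
  unfold theta; rw [derivative_one, mul_zero]

lemma theta_C (r : R) : theta (C r : R⟦X⟧) = 0 := by
  unfold theta; rw [derivative_C, mul_zero]

lemma theta_ofNat (n : ℕ) [n.AtLeastTwo] : theta (OfNat.ofNat n : R⟦X⟧) = 0 := by
  have : (OfNat.ofNat n : R⟦X⟧) = C (OfNat.ofNat n : R) := by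
    rw [← Nat.cast_ofNat (R := R⟦X⟧), ← Nat.cast_ofNat (R := R), map_natCast]
  rw [this, theta_C]

lemma theta_pow_two (f : R⟦X⟧) : theta (f ^ 2) = 2 * f * theta f := by
  rw [pow_two, theta_mul]; ring

lemma theta_map {S : Type*} [CommRing S] (φ : R →+* S) (f : R⟦X⟧) :
    PowerSeries.map φ (theta f) = theta (PowerSeries.map φ f) := by
  ext n
  rw [coeff_map, coeff_theta, coeff_theta, coeff_map, map_mul, map_natCast]

end Theta

/-! ### Frobenius on power series over `ZMod p` -/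

section Frobenius

variable (p : ℕ) [hp : Fact p.Prime]

/-- `f ^ p = f(X^p)` for power series over `ZMod p`. -/
theorem pow_card_eq_expand (f : (ZMod p)⟦X⟧) :
    f ^ p = PowerSeries.expand p hp.out.ne_zero f := by
  have : CharP (ZMod p)⟦X⟧ p :=
    charP_of_injective_algebraMap (R := ZMod p) (A := (ZMod p)⟦X⟧)
      (by
        intro a b h
        have := congrArg (PowerSeries.constantCoeff (R := ZMod p)) h
        simpa using this) p
  ext m
  have hsplit := eq_shift_mul_X_pow_add_trunc (m + 1) f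
  set g : (ZMod p)⟦X⟧ := mk fun i => coeff (i + (m + 1)) f with hg
  set t : Polynomial (ZMod p) := trunc (m + 1) f with ht
  have h1 : f ^ p = (g * X ^ (m + 1)) ^ p + ((t : (ZMod p)⟦X⟧)) ^ p := by
    conv_lhs => rw [hsplit]
    exact add_pow_char _ _ _
  have h2 : coeff m ((g * X ^ (m + 1)) ^ p) = 0 := by
    rw [mul_pow, ← pow_mul, coeff_mul_X_pow']
    have : ¬ (m + 1) * p ≤ m := by
      have hp1 : 1 ≤ p := hp.out.one_le
      nlinarith
    rw [if_neg this]
  have h3 : ((t : (ZMod p)⟦X⟧)) ^ p = ((Polynomial.expand (ZMod p) p t : Polynomial (ZMod p)) :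
      (ZMod p)⟦X⟧) := by
    rw [ZMod.expand_card, Polynomial.coe_pow]
  rw [h1, map_add, h2, zero_add, h3, Polynomial.coeff_coe, Polynomial.coeff_expand hp.out.pos,
    PowerSeries.coeff_expand]
  split_ifs with hd
  · rw [ht, coeff_trunc, if_pos]
    exact lt_of_le_of_lt (Nat.div_le_self m p) (Nat.lt_succ_self m)
  · rfl

end Frobenius

/-! ### The exact formula for `Δ` -/

section Formula

/-- **The exact formula**: Ramanujan's differential equations determine `Δ` in terms of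
`s = ∑ σ(n) qⁿ`, `θ s`, `θ² s` and `S₃`, `S₅`. -/
theorem delta_formula (s S3 S5 P Q R D : ℤ⟦X⟧) (hP : P = 1 - 24 * s) (hQ : Q = 1 + 240 * S3)
    (hR : R = 1 - 504 * S5) (h1 : 12 * theta P = P ^ 2 - Q) (h2 : 3 * theta Q = P * Q - R)
    (h3 : 1728 * D = Q ^ 3 - R ^ 2) :
    D = -s ^ 2 + 12 * s * theta s + theta (theta s) + 16 * s ^ 3 + 100 * S3 ^ 2 + 8000 * S3 ^ 3
      - 147 * S5 ^ 2 := by
  subst hP hQ hR
  have tP : theta (1 - 24 * s : ℤ⟦X⟧) = -24 * theta s := by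
    rw [theta_sub, theta_one, theta_mul, theta_ofNat]; ring
  have tQ : theta (1 + 240 * S3 : ℤ⟦X⟧) = 240 * theta S3 := by
    rw [theta_add, theta_one, theta_mul, theta_ofNat]; ring
  rw [tP] at h1
  rw [tQ] at h2
  -- (A') : 240 S3 = -48 s + 576 s² + 288 θs
  have hA : 240 * S3 + 48 * s - 576 * s ^ 2 - 288 * theta s = 0 := by
    linear_combination h1
  -- (B') : 504 S5 = 720 θS3 - 240 S3 + 24 s + 5760 s S3
  have hB : 504 * S5 - 720 * theta S3 + 240 * S3 - 24 * s - 5760 * s * S3 = 0 := by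
    linear_combination (-1 : ℤ⟦X⟧) * h2
  -- (A'') : θ of (A')
  have hA' : 240 * theta S3 + 48 * theta s - 1152 * s * theta s - 288 * theta (theta s) = 0 := by
    have := congrArg theta hA
    rw [theta_sub, theta_sub, theta_add, theta_mul, theta_mul, theta_mul, theta_mul, theta_ofNat,
      theta_ofNat, theta_ofNat, theta_ofNat, theta_pow_two] at this
    have h0 : theta (0 : ℤ⟦X⟧) = 0 := by
      have := theta_C (R := ℤ) 0
      simpa using this
    rw [h0] at this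
    linear_combination this
  have key : (1728 : ℤ⟦X⟧) * D = 1728 * (-s ^ 2 + 12 * s * theta s + theta (theta s) + 16 * s ^ 3 +
      100 * S3 ^ 2 + 8000 * S3 ^ 3 - 147 * S5 ^ 2) := by
    linear_combination h3 + 2 * hB + 6 * hA' + (1 + 48 * s) * hA
  have h1728 : (1728 : ℤ⟦X⟧) ≠ 0 := by
    intro h
    have := congrArg (PowerSeries.constantCoeff (R := ℤ)) h
    rw [map_ofNat, map_zero] at this
    norm_num at this
  exact mul_left_cancel₀ h1728 key

/-- `S₃ ≡ s (mod 3)` is forced by `12 θP = P² - Q`. -/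
theorem five_mul_S3 (s S3 P Q : ℤ⟦X⟧) (hP : P = 1 - 24 * s) (hQ : Q = 1 + 240 * S3)
    (h1 : 12 * theta P = P ^ 2 - Q) : 5 * S3 = -s + 12 * s ^ 2 + 6 * theta s := by
  subst hP hQ
  have tP : theta (1 - 24 * s : ℤ⟦X⟧) = -24 * theta s := by
    rw [theta_sub, theta_one, theta_mul, theta_ofNat]; ring
  rw [tP] at h1
  have key : (48 : ℤ⟦X⟧) * (5 * S3) = 48 * (-s + 12 * s ^ 2 + 6 * theta s) := by
    linear_combination h1
  have h48 : (48 : ℤ⟦X⟧) ≠ 0 := by
    intro h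
    have := congrArg (PowerSeries.constantCoeff (R := ℤ)) h
    rw [map_ofNat, map_zero] at this
    norm_num at this
  exact mul_left_cancel₀ h48 key

/-- Reduction mod `3`. -/
abbrev red3 : ℤ⟦X⟧ →+* (ZMod 3)⟦X⟧ := PowerSeries.map (Int.castRingHom (ZMod 3))

lemma three_eq_zero : (3 : (ZMod 3)⟦X⟧) = 0 := by
  have h : ((3 : ℕ) : ZMod 3) = 0 := ZMod.natCast_self 3
  have : (3 : (ZMod 3)⟦X⟧) = C ((3 : ℕ) : ZMod 3) := by
    rw [map_natCast]; norm_num
  rw [this, h, map_zero]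

/-- **`Δ ≡ θ² s (mod 3)`.** -/
theorem delta_mod_three (s S3 S5 P Q R D : ℤ⟦X⟧) (hP : P = 1 - 24 * s) (hQ : Q = 1 + 240 * S3)
    (hR : R = 1 - 504 * S5) (h1 : 12 * theta P = P ^ 2 - Q) (h2 : 3 * theta Q = P * Q - R)
    (h3 : 1728 * D = Q ^ 3 - R ^ 2) :
    red3 D = theta (theta (red3 s)) := by
  have hD := delta_formula s S3 S5 P Q R D hP hQ hR h1 h2 h3
  have hS := five_mul_S3 s S3 P Q hP hQ h1
  have hD' := congrArg red3 hD
  have hS' := congrArg red3 hS
  simp only [map_add, map_sub, map_mul, map_pow, map_neg, map_ofNat] at hD' hS'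
  rw [theta_map, theta_map, theta_map] at hD'
  rw [theta_map] at hS'
  have h3 := three_eq_zero
  -- `S3 ≡ s`
  have hS3 : red3 S3 = red3 s := by
    linear_combination (-1 : (ZMod 3)⟦X⟧) * hS' +
      (2 * red3 S3 - 4 * red3 s ^ 2 - 2 * theta (red3 s)) * h3
  rw [hD', hS3]
  linear_combination (4 * red3 s * theta (red3 s) + 5 * red3 s ^ 3 + 33 * red3 s ^ 2
    + 2667 * red3 s ^ 3 - 49 * red3 S5 ^ 2) * h3

end Formula

/-! ### The series `s = ∑ σ(n) Xⁿ` mod `3` -/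

section Sigma

open ArithmeticFunction

/-- `s = ∑_{n ≥ 1} σ(n) Xⁿ` over `ℤ`. -/
def sigmaSeries : ℤ⟦X⟧ := PowerSeries.mk fun n => (sigma 1 n : ℤ)

@[simp] lemma coeff_sigmaSeries (n : ℕ) : coeff n sigmaSeries = (sigma 1 n : ℤ) := coeff_mk _ _

/-- `σ(3^b) ≡ 1 (mod 3)`. -/
lemma sigma_three_pow (b : ℕ) : ((sigma 1 (3 ^ b) : ℕ) : ZMod 3) = 1 := by
  rw [sigma_one_apply_prime_pow Nat.prime_three]
  rw [Finset.sum_range_succ', Nat.cast_add, Nat.cast_sum]
  have : ∀ k ∈ Finset.range b, ((3 ^ (k + 1) : ℕ) : ZMod 3) = 0 := by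
    intro k _
    rw [Nat.cast_pow, pow_succ]
    have : ((3 : ℕ) : ZMod 3) = 0 := ZMod.natCast_self 3
    rw [this, mul_zero]
  rw [Finset.sum_eq_zero this]
  simp

/-- `σ(3m) ≡ σ(m) (mod 3)`. -/
lemma sigma_three_mul (m : ℕ) : ((sigma 1 (3 * m) : ℕ) : ZMod 3) = ((sigma 1 m : ℕ) : ZMod 3) := by
  rcases Nat.eq_zero_or_pos m with rfl | hm
  · simp
  obtain ⟨a, m', hm', rfl⟩ := Nat.exists_eq_pow_mul_and_not_dvd hm.ne' 3 (by norm_num)
  have hcop : ∀ b : ℕ, Nat.Coprime (3 ^ b) m' := fun b =>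
    Nat.Coprime.pow_left b ((Nat.Prime.coprime_iff_not_dvd Nat.prime_three).2 hm')
  have h1 : 3 * (3 ^ a * m') = 3 ^ (a + 1) * m' := by ring
  rw [h1, isMultiplicative_sigma.map_mul_of_coprime (hcop (a + 1)),
    isMultiplicative_sigma.map_mul_of_coprime (hcop a), Nat.cast_mul, Nat.cast_mul,
    sigma_three_pow, sigma_three_pow]

/-- `n² = 1` in `ZMod 3` for `3 ∤ n`. -/
lemma sq_eq_one_of_not_dvd {n : ℕ} (h : ¬ 3 ∣ n) : ((n : ZMod 3)) * (n : ZMod 3) = 1 := by
  have hn : (n : ZMod 3) ≠ 0 := by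
    rwa [Ne, ZMod.natCast_eq_zero_iff]
  have := ZMod.pow_card_sub_one_eq_one hn
  simpa [pow_two] using this

/-- **`θ² s ≡ s - s³ (mod 3)`** for `s = ∑ σ(n) Xⁿ`. -/
theorem sigmaSeries_sub_cube :
    theta (theta (red3 sigmaSeries)) = red3 sigmaSeries - red3 sigmaSeries ^ 3 := by
  have : Fact (Nat.Prime 3) := ⟨Nat.prime_three⟩
  rw [pow_card_eq_expand 3]
  ext n
  rw [coeff_theta, coeff_theta, map_sub, PowerSeries.coeff_expand, coeff_map, coeff_sigmaSeries]
  by_cases h : 3 ∣ n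
  · obtain ⟨m, rfl⟩ := h
    rw [if_pos (dvd_mul_right 3 m), Nat.mul_div_cancel_left m (by norm_num : 0 < 3), coeff_map,
      coeff_sigmaSeries]
    have h0 : ((3 * m : ℕ) : ZMod 3) = 0 := by
      rw [ZMod.natCast_eq_zero_iff]; exact dvd_mul_right 3 m
    rw [h0, zero_mul]
    have := sigma_three_mul m
    simp only [eq_intCast, Int.cast_natCast] at this ⊢
    rw [this, sub_self]
  · rw [if_neg h, sub_zero, ← mul_assoc, sq_eq_one_of_not_dvd h, one_mul]

/-- **The Artin–Schreier relation `Δ ≡ s - s³ (mod 3)`**, from Ramanujan's identities. -/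
theorem delta_eq_sub_cube (S3 S5 P Q R D : ℤ⟦X⟧) (hP : P = 1 - 24 * sigmaSeries)
    (hQ : Q = 1 + 240 * S3) (hR : R = 1 - 504 * S5) (h1 : 12 * theta P = P ^ 2 - Q)
    (h2 : 3 * theta Q = P * Q - R) (h3 : 1728 * D = Q ^ 3 - R ^ 2) :
    red3 D = red3 sigmaSeries - red3 sigmaSeries ^ 3 := by
  rw [delta_mod_three sigmaSeries S3 S5 P Q R D hP hQ hR h1 h2 h3, sigmaSeries_sub_cube]

end Sigma

end Fermat.Agent.S16.UB3.DeltaMod3
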