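/-
PROJECT E (S16), slice E-UB3 (helper4): THE ALGEBRAIC CONTRADICTION OVER `ℤ`.

Input: two integer power series `rootZ`, `psiZ` (the `q`-expansion of a weight `6` form `G` of
level `p` and the `q^{1/p}`-expansion of its conjugates) such that
* `rootZ ≡ s = ∑ σ(n) qⁿ (mod 3)`;
* every coefficient of the formal characteristic polynomial
  `(Y - rootZ) * charpoly (mulMatrix p psiZ)` is, modulo `3`, a polynomial in
  `Δ̄ = s̄ - s̄³` (they are `q`-expansions of level-one forms with integer coefficients).
Output: `False` (for a prime `p ≠ 3`).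

Proof: base change to `K = AlgebraicClosure (ZMod 3)`, which contains a primitive `p`-th root of
unity `ζ`; substitute `q = tᵖ`; then the polynomial becomes `(Y - s(tᵖ)) ∏ⱼ (Y - Ψ(ζʲ t))` and
`ArtinSchreier.false_of_coeff_mem_range` applies.
-/
import Mathlib
import Fermat.Agent.S16.ArtinSchreier
import Fermat.Agent.S16.PowerSeriesNorm
import Fermat.Agent.S16.UB3.DeltaMod3

set_option autoImplicit false

namespace Fermat.Agent.S16.UB3.Core

open PowerSeries
open Fermat.Agent.S16.PowerSeriesNorm Fermat.Agent.S16.ArtinSchreier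
open Fermat.Agent.S16.UB3.DeltaMod3

/-- `expand p` commutes with the evaluation of a polynomial with constant coefficients. -/
lemma expand_aeval {k : Type*} [CommRing k] (p : ℕ) (hp : p ≠ 0) (u : k⟦X⟧)
    (P : Polynomial k) :
    expand p hp (Polynomial.aeval u P) = Polynomial.aeval (expand p hp u) P := by
  induction P using Polynomial.induction_on' with
  | add a b ha hb => rw [map_add, map_add, map_add, ha, hb]
  | monomial n c =>
    rw [Polynomial.aeval_monomial, Polynomial.aeval_monomial, map_mul, map_pow]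
    congr 1
    ext m
    rw [coeff_expand]
    change _ = coeff m (C c)
    rw [coeff_C]
    change (if p ∣ m then coeff (m / p) (C c) else 0) = _
    rw [coeff_C]
    by_cases hm : m = 0
    · subst hm
      simp
    · rw [if_neg hm]
      split_ifs with h1 h2
      · exfalso
        obtain ⟨d, rfl⟩ := h1
        rw [Nat.mul_div_cancel_left _ (Nat.pos_of_ne_zero hp)] at h2
        subst h2
        exact hm rfl
      · rfl
      · rfl

/-- `map φ` commutes with the evaluation of a polynomial (base-changed). -/
lemma map_aeval {k K : Type*} [CommRing k] [CommRing K] (φ : k →+* K) (u : k⟦X⟧)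
    (P : Polynomial k) :
    PowerSeries.map φ (Polynomial.aeval u P) =
      Polynomial.aeval (PowerSeries.map φ u) (P.map φ) := by
  induction P using Polynomial.induction_on' with
  | add a b ha hb => rw [map_add, map_add, Polynomial.map_add, map_add, ha, hb]
  | monomial n c =>
    rw [Polynomial.aeval_monomial, Polynomial.map_monomial, Polynomial.aeval_monomial, map_mul,
      map_pow]
    congr 1
    ext m
    change coeff m (PowerSeries.map φ (C c)) = coeff m (C (φ c))
    rw [coeff_map, coeff_C, coeff_C]
    split_ifs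
    · rfl
    · exact map_zero φ

/-- **The algebraic contradiction of the `l = 3` step, over `ℤ`.** -/
theorem false_of_charpoly_coeffs (p : ℕ) [hp : Fact p.Prime] (hp3 : p ≠ 3)
    (rootZ psiZ : ℤ⟦X⟧) (hroot : red3 rootZ = red3 sigmaSeries)
    (hcoeff : ∀ i : ℕ, ∃ P : Polynomial (ZMod 3),
      red3 (((Polynomial.X - Polynomial.C rootZ) * (mulMatrix p psiZ).charpoly).coeff i) =
        Polynomial.aeval (red3 sigmaSeries - red3 sigmaSeries ^ 3) P) : False := by
  classical
  have hp0 : p ≠ 0 := hp.out.ne_zero
  have : Fact (Nat.Prime 3) := ⟨Nat.prime_three⟩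
  let K := AlgebraicClosure (ZMod 3)
  have : CharP K 3 := charP_of_injective_algebraMap (algebraMap (ZMod 3) K).injective 3
  have : NeZero (p : K) := ⟨by
    intro h
    have h1 := (CharP.cast_eq_zero_iff K 3 p).1 h
    exact hp3 ((Nat.prime_dvd_prime_iff_eq Nat.prime_three hp.out).1 h1).symm⟩
  obtain ⟨ζ, hζ⟩ := HasEnoughRootsOfUnity.exists_primitiveRoot K p
  let φ : ZMod 3 →+* K := algebraMap (ZMod 3) K
  let ι : ℤ →+* K := Int.castRingHom K
  have hι : ι = φ.comp (Int.castRingHom (ZMod 3)) := RingHom.ext_int _ _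
  let sK : K⟦X⟧ := PowerSeries.map φ (red3 sigmaSeries)
  let s : K⟦X⟧ := expand p hp0 sK
  let Ψ : K⟦X⟧ := PowerSeries.map ι psiZ
  let θ : ℤ⟦X⟧ →+* K⟦X⟧ := ((expand p hp0 (R := K)).toRingHom).comp (PowerSeries.map ι)
  have hθ : ∀ f : ℤ⟦X⟧, θ f = expand p hp0 (PowerSeries.map φ (red3 f)) := by
    intro f
    change expand p hp0 (PowerSeries.map ι f) = _
    rw [hι]
    congr 1
  have key : charPoly p ζ s Ψ =
      ((Polynomial.X - Polynomial.C rootZ) * (mulMatrix p psiZ).charpoly).map θ := by
    rw [charPoly, Polynomial.map_mul, Polynomial.map_sub, Polynomial.map_X, Polynomial.map_C]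
    congr 1
    · rw [hθ, hroot]
    · rw [← Fin.prod_univ_eq_prod_range
        (fun j => Polynomial.X - Polynomial.C (rescale (ζ ^ j) Ψ)) p]
      rw [prod_X_sub_C_rescale_eq p hp0 hζ Ψ, charpoly_mulMatrix_map, Polynomial.map_map]
  have hs1 : coeff p s = 1 := by
    change coeff p (expand p hp0 sK) = 1
    rw [coeff_expand, if_pos (dvd_refl p), Nat.div_self hp.out.pos]
    simp [sK]
  apply false_of_coeff_mem_range hp.out.pos hζ.pow_eq_one s Ψ
  · change constantCoeff (expand p hp0 sK) = 0
    rw [← coeff_zero_eq_constantCoeff_apply, coeff_expand, if_pos (dvd_zero p), Nat.zero_div]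
    simp [sK]
  · intro h
    rw [h, map_zero] at hs1
    exact zero_ne_one hs1
  · intro n hn
    change coeff n (expand p hp0 sK) = 0
    rw [coeff_expand, if_neg hn]
  · intro n
    rw [key, Polynomial.coeff_map]
    obtain ⟨P, hP⟩ := hcoeff n
    refine ⟨P.map φ, ?_⟩
    rw [hθ, hP, map_aeval, expand_aeval]
    simp only [map_sub, map_pow, AlgHom.coe_toRingHom, s, sK]

end Fermat.Agent.S16.UB3.Core
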