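/-
PROJECT E (S16), slice E-UB3 (helper4): `Δ ≡ s - s³ (mod 3)` FOR THE ACTUAL `q`-EXPANSION OF `Δ`.

Glue between `UB3/DeltaMod3` (formal computation from Ramanujan's identities) and the integral
models `Pz Qz Rz` of `WT/Defs` with their identities (`WT/QExpD`) and `1728 Δ = E₄³ - E₆²`
(`WT/Structure`): any `D : ℤ⟦X⟧` whose base change to `ℂ` is the `q`-expansion of `Δ` satisfies
`red3 D = red3 sigmaSeries - red3 sigmaSeries ^ 3`.
-/
import Mathlib
import Fermat.Agent.S16.WT.Defs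
import Fermat.Agent.S16.WT.QExpD
import Fermat.Agent.S16.WT.Structure
import Fermat.Agent.S16.UB3.DeltaMod3

set_option autoImplicit false

namespace Fermat.Agent.S16.UB3.DeltaGlue

open PowerSeries ModularFormClass ModularForm UpperHalfPlane
open scoped ArithmeticFunction.sigma
open Fermat.Agent.S16.WT Fermat.Agent.S16.UB3.DeltaMod3

/-- `∑ σ₃(n) qⁿ` -/
def S3z : ℤ⟦X⟧ := PowerSeries.mk fun n => (σ 3 n : ℤ)

/-- `∑ σ₅(n) qⁿ` -/
def S5z : ℤ⟦X⟧ := PowerSeries.mk fun n => (σ 5 n : ℤ)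

@[simp] lemma coeff_S3z (n : ℕ) : coeff n S3z = (σ 3 n : ℤ) := coeff_mk _ _
@[simp] lemma coeff_S5z (n : ℕ) : coeff n S5z = (σ 5 n : ℤ) := coeff_mk _ _

lemma coeff_ofNat_mul (a : ℕ) [a.AtLeastTwo] (f : ℤ⟦X⟧) (n : ℕ) :
    coeff n ((OfNat.ofNat a : ℤ⟦X⟧) * f) = (OfNat.ofNat a : ℤ) * coeff n f := by
  have : (OfNat.ofNat a : ℤ⟦X⟧) = C (OfNat.ofNat a : ℤ) := by
    rw [map_ofNat]
  rw [this, coeff_C_mul]

theorem Pz_eq : Pz = 1 - 24 * sigmaSeries := by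
  ext n
  rw [coeff_Pz, map_sub, coeff_ofNat_mul, coeff_sigmaSeries, coeff_one]
  split_ifs with h
  · subst h; simp
  · ring

theorem Qz_eq : Qz = 1 + 240 * S3z := by
  ext n
  rw [coeff_Qz, map_add, coeff_ofNat_mul, coeff_S3z, coeff_one]
  split_ifs with h
  · subst h; simp
  · ring

theorem Rz_eq : Rz = 1 - 504 * S5z := by
  ext n
  rw [coeff_Rz, map_sub, coeff_ofNat_mul, coeff_S5z, coeff_one]
  split_ifs with h
  · subst h; simp
  · ring

/-- The two `θ`'s agree. -/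
lemma theta_eq (f : ℤ⟦X⟧) : WT.theta ℤ f = DeltaMod3.theta f := rfl

/-- `Δ ≡ s - s³ (mod 3)` for an integral model `D` of `Δ` given by `1728 D = Q³ - R²`. -/
theorem red3_eq_of_mul (D : ℤ⟦X⟧) (h : 1728 * D = Qz ^ 3 - Rz ^ 2) :
    red3 D = red3 sigmaSeries - red3 sigmaSeries ^ 3 :=
  delta_eq_sub_cube S3z S5z Pz Qz Rz D Pz_eq Qz_eq Rz_eq
    (by rw [← theta_eq]; exact QExpD.ramanujan_Pz) (by rw [← theta_eq]; exact QExpD.ramanujan_Qz) h

/-- **`Δ ≡ s - s³ (mod 3)`** for any `D : ℤ⟦X⟧` whose base change is the `q`-expansion of `Δ`. -/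
theorem red3_eq_of_map (D : ℤ⟦X⟧)
    (hD : D.map (Int.castRingHom ℂ) = qExpansion 1 ModularForm.discriminant) :
    red3 D = red3 sigmaSeries - red3 sigmaSeries ^ 3 := by
  apply red3_eq_of_mul
  apply QExpD.map_intCast_injective
  have h := Structure.qExpansion_discriminant_eq
  rw [← hD, ← map_Qz, ← map_Rz] at h
  rw [map_mul, map_sub, map_pow, map_pow, ← h]
  have h1 : (PowerSeries.map (Int.castRingHom ℂ)) (1728 : ℤ⟦X⟧) = C (1728 : ℂ) := by
    rw [map_ofNat, map_ofNat]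
  rw [h1]
  ext n
  rw [coeff_C_mul, coeff_smul, smul_eq_mul]

end Fermat.Agent.S16.UB3.DeltaGlue
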