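/-
PROJECT E (S16), slice E-UB3 (helper4): ASSEMBLY of the `l = 3` contradiction from a level-`p`
form with integral `q`-expansions.

Input: `G : ModularForm (Γ₀(p)) k` (any weight), integer power series `rootZ`, `psiZ` with
`rootZ = qx G`, `psiZ = psiOf k p G = p^(1-k) qx (w_p G)` (after base change to `ℂ`) and
`rootZ ≡ s = ∑ σ(n) qⁿ (mod 3)`.  Output: `False` (for `p ≠ 3`).

The coefficients of the formal characteristic polynomial `(Y - rootZ) charpoly (mulMatrix p psiZ)`
are (up to sign) the integer `q`-expansions of the level-one forms `esymmForm 𝒮ℒ G i`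
(`ConjExpansion.qx_esymmForm_map`), hence polynomials in `Δ̄` modulo `3`
(`LevelOneMod3.exists_poly_mod_three`), and `Δ̄ = s̄ - s̄³` (`DeltaGlue`); conclude by
`Core.false_of_charpoly_coeffs`.
-/
import Mathlib
import Fermat.Agent.S16.ConjExpansion
import Fermat.Agent.S16.UB3.Core
import Fermat.Agent.S16.UB3.DeltaGlue
import Fermat.Agent.S16.UB3.LevelOneMod3

set_option autoImplicit false

namespace Fermat.Agent.S16.UB3.Assembly

open PowerSeries UpperHalfPlane ModularForm
open Fermat.Agent.S20 Fermat.Agent.S23.QRing Fermat.Agent.S23.CharPoly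
open Fermat.Agent.S16.PowerSeriesNorm Fermat.Agent.S16.ConjExpansion
open Fermat.Agent.S16.UB3.DeltaMod3 Fermat.Agent.S16.UB3.LevelOneMod3

open scoped MatrixGroups

/-- The reduction of `DeltaZ` modulo `3` is `s̄ - s̄³`. -/
theorem red3_DeltaZ : red3 DeltaZ = red3 sigmaSeries - red3 sigmaSeries ^ 3 :=
  DeltaGlue.red3_eq_of_mul DeltaZ DeltaZ_spec

/-- **Assembly**: no level-`p` form (`p ≠ 3`) has integral `q`-expansion `≡ s (mod 3)` together
with an integral conjugate expansion. -/
theorem false_of_form (p : ℕ) [hp : Fact p.Prime] (hp3 : p ≠ 3) {k : ℤ}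
    (G : ModularForm (G0 p) k) (rootZ psiZ : ℤ⟦X⟧)
    (hroot : rootZ.map (Int.castRingHom ℂ) = qx ⇑G)
    (hpsi : psiZ.map (Int.castRingHom ℂ) = psiOf k p ⇑G)
    (hred : red3 rootZ = red3 sigmaSeries) : False := by
  refine Core.false_of_charpoly_coeffs p hp3 rootZ psiZ hred ?_
  intro i
  set chi : Polynomial ℤ⟦X⟧ :=
    (Polynomial.X - Polynomial.C rootZ) * (mulMatrix p psiZ).charpoly with hchi
  by_cases hi : i ≤ p + 1
  · -- `i = p + 1 - j`
    obtain ⟨j, hj, rfl⟩ : ∃ j, j ≤ p + 1 ∧ i = p + 1 - j := ⟨p + 1 - i, by omega, by omega⟩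
    have h1 := qx_esymmForm_map (Int.castRingHom ℂ) G rootZ psiZ hroot hpsi hj
    obtain ⟨P, hP⟩ := exists_poly_mod_three (esymmForm 𝒮ℒ G j)
      ((-1) ^ j * chi.coeff (p + 1 - j)) h1.symm
    refine ⟨Polynomial.C ((-1) ^ j) * P, ?_⟩
    rw [← red3_DeltaZ, map_mul, ← hP, Polynomial.aeval_C]
    change red3 (chi.coeff (p + 1 - j)) = _ * red3 ((-1) ^ j * chi.coeff (p + 1 - j))
    rw [map_mul, ← mul_assoc, map_pow, map_neg, map_one, map_pow, map_neg, map_one,
      ← pow_add, ← two_mul, pow_mul]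
    simp
  · -- beyond the degree
    refine ⟨0, ?_⟩
    rw [map_zero]
    have hdeg : chi.natDegree ≤ p + 1 := by
      refine le_trans Polynomial.natDegree_mul_le ?_
      have h1 : (Polynomial.X - Polynomial.C rootZ).natDegree ≤ 1 := by
        rw [Polynomial.natDegree_X_sub_C]
      have h2 : (mulMatrix p psiZ).charpoly.natDegree = p := by
        rw [Matrix.charpoly_natDegree_eq_dim, Fintype.card_fin]
      omega
    rw [Polynomial.coeff_eq_zero_of_natDegree_lt (by omega), map_zero]

end Fermat.Agent.S16.UB3.Assembly
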