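/-
PROJECT E (S16), slice E-UB3 (U3-c): the weight 6 test form.

For `f₀ ∈ M₂(Γ₀(p))` (in the application a cusp form with integral `q`-expansion `a`):
`F₆ := 2 (f₀ E₄ + (E₆(p·) − E₆)/504) ∈ M₆(Γ₀(p))`, with
* `qx F₆ = 2 (a Q + Σ σ₅(n) (qⁿ − q^{pn}))`,
* `w_p F₆ = 2 (−p⁴ (U_p f₀) E₄(p·) + (p⁻¹ E₆ − p⁵ E₆(p·))/504)`,
and the integral normalisation `G₆ := −56 p⁶ F₆` (`−56 p⁶ ≡ 1 mod 3`), for which both `qx G₆` and
`p⁻⁵ qx (w_p G₆)` have INTEGER coefficients (`gZ`, `psiZ`).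
-/
import Mathlib
import Fermat.Agent.S16.WpLevelOne
import Fermat.Agent.S16.WT.Defs
import Fermat.Agent.S16.SigmaCongr
import Fermat.Agent.S16.UB3.DeltaMod3

set_option autoImplicit false

noncomputable section

namespace Fermat.Agent.S16.UB3.Form6

open UpperHalfPlane SlashInvariantForm CongruenceSubgroup ModularGroup ModularForm
  ModularFormClass EisensteinSeries
open Fermat.Agent.S20 Fermat.Agent.S23.QRing Fermat.Agent.S16.Trace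
open Fermat.Agent.S24.LevelRaise Fermat.Agent.S16.WpLevelOne Fermat.Agent.S16.WT
open Fermat.Agent.S16

open scoped ModularForm Manifold MatrixGroups ArithmeticFunction.sigma

variable (p : ℕ) [hp : Fact p.Prime]

/-- `E₄(p·) ∈ M₄(Γ₀(p))` -/
def V4 : ModularForm (G0 p) 4 := raise p p dvd_rfl E₄

/-- `E₆(p·) ∈ M₆(Γ₀(p))` -/
def V6 : ModularForm (G0 p) 6 := raise p p dvd_rfl E₆

/-- the test form `F₆ = 2 (f₀ E₄ + (E₆(p·) − E₆)/504)` -/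
def F6fun (f0 : ℍ → ℂ) : ℍ → ℂ :=
  (2 : ℂ) • (f0 * ⇑E₄ + (1 / 504 : ℂ) • (⇑(V6 p) - ⇑E₆))

theorem isMF_F6fun {f0 : ℍ → ℂ} (hf0 : IsMF (G0 p) 2 f0) : IsMF (G0 p) 6 (F6fun p f0) := by
  have h4 : IsMF (G0 p) 4 ⇑E₄ := IsMF.ofLevelOne (IsMF.coe E₄)
  have h6 : IsMF (G0 p) 6 ⇑E₆ := IsMF.ofLevelOne (IsMF.coe E₆)
  have h24 : IsMF (G0 p) 6 (f0 * ⇑E₄) := (hf0.mul h4).cast (by norm_num)
  exact (h24.add (((IsMF.coe (V6 p)).sub h6).smul _)).smul _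

theorem isQ_V4 : IsQ ⇑(V4 p) := isQ_of_modularForm (V4 p)
theorem isQ_V6 : IsQ ⇑(V6 p) := isQ_of_modularForm (V6 p)
theorem isQ_E4 : IsQ ⇑E₄ := isQ_of_levelOne E₄
theorem isQ_E6 : IsQ ⇑E₆ := isQ_of_levelOne E₆

theorem qx_V4 : qExpansion 1 ⇑(V4 p) = PowerSeries.expand p hp.out.ne_zero (qExpansion 1 ⇑E₄) :=
  qx_raise p E₄

theorem qx_V6 : qExpansion 1 ⇑(V6 p) = PowerSeries.expand p hp.out.ne_zero (qExpansion 1 ⇑E₆) :=
  qx_raise p E₆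

/-- the `q`-expansion of `F₆` -/
theorem qx_F6fun {f0 : ℍ → ℂ} (hf0 : IsQ f0) :
    qExpansion 1 (F6fun p f0) =
      (2 : ℂ) • (qExpansion 1 f0 * qExpansion 1 ⇑E₄ +
        (1 / 504 : ℂ) • (PowerSeries.expand p hp.out.ne_zero (qExpansion 1 ⇑E₆)
          - qExpansion 1 ⇑E₆)) := by
  have e1 := qx_smul (2 : ℂ) ((hf0.mul isQ_E4).add (((isQ_V6 p).sub isQ_E6).smul (1 / 504 : ℂ)))
  have e2 := qx_add (hf0.mul isQ_E4) (((isQ_V6 p).sub isQ_E6).smul (1 / 504 : ℂ))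
  have e3 := qx_mul hf0 isQ_E4
  have e4 := qx_smul (1 / 504 : ℂ) ((isQ_V6 p).sub isQ_E6)
  have e5 := qx_sub (isQ_V6 p) isQ_E6
  simp only [qx] at e1 e2 e3 e4 e5
  rw [F6fun, e1, e2, e3, e4, e5, qx_V6]

/-- `w_p F₆` -/
theorem wp_F6fun {f0 : ℍ → ℂ} (hf0 : IsMF (G0 p) 2 f0) :
    wp 6 p (F6fun p f0) =
      (2 : ℂ) • ((-(p : ℂ) ^ 4) • (heckeU 2 p f0 * ⇑(V4 p)) +
        (1 / 504 : ℂ) • ((p : ℂ)⁻¹ • ⇑E₆ - ((p : ℂ) ^ 5) • ⇑(V6 p))) := by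
  have hp0 : p ≠ 0 := hp.out.ne_zero
  have hpC : (p : ℂ) ≠ 0 := by exact_mod_cast hp0
  have h1 : wp 6 p (f0 * ⇑E₄) = (-(p : ℂ) ^ 4) • (heckeU 2 p f0 * ⇑(V4 p)) := by
    have := wp_mul 2 4 hp0 f0 ⇑E₄
    rw [show (2 : ℤ) + 4 = 6 by norm_num] at this
    rw [this, wp_two_eq_neg_heckeU hf0, wp_levelOne p E₄]
    funext τ
    simp only [Pi.smul_apply, Pi.mul_apply, Pi.neg_apply, smul_eq_mul, V4]
    rw [show (4 : ℤ) - 1 = ((3 : ℕ) : ℤ) by norm_num, zpow_natCast]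
    ring
  have h2 : wp 6 p ⇑(V6 p) = (p : ℂ)⁻¹ • ⇑E₆ := by
    rw [V6, wp_raise p E₆]
    norm_num
  have h3 : wp 6 p ⇑E₆ = ((p : ℂ) ^ 5) • ⇑(V6 p) := by
    rw [wp_levelOne p E₆, V6, show (6 : ℤ) - 1 = ((5 : ℕ) : ℤ) by norm_num, zpow_natCast]
  rw [F6fun, wp_smul 6 hp0, wp_add, wp_smul 6 hp0, wp_sub, h1, h2, h3]

/-- the `q`-expansion of `w_p F₆` -/
theorem qx_wp_F6fun {f0 : ℍ → ℂ} (hf0 : IsMF (G0 p) 2 f0) :
    qExpansion 1 (wp 6 p (F6fun p f0)) =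
      (2 : ℂ) • ((-(p : ℂ) ^ 4) • (PowerSeriesNorm.sect p 0 (qExpansion 1 f0) *
          PowerSeries.expand p hp.out.ne_zero (qExpansion 1 ⇑E₄)) +
        (1 / 504 : ℂ) • ((p : ℂ)⁻¹ • qExpansion 1 ⇑E₆ -
          ((p : ℂ) ^ 5) • PowerSeries.expand p hp.out.ne_zero (qExpansion 1 ⇑E₆))) := by
  have hp0 : p ≠ 0 := hp.out.ne_zero
  have hQ : IsQ f0 := isQ_of_isMF hf0
  have hU : IsQ (heckeU 2 p f0) := isQ_heckeU hQ 2 p
  have hA : IsQ (heckeU 2 p f0 * ⇑(V4 p)) := hU.mul (isQ_V4 p)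
  have hB : IsQ ((p : ℂ)⁻¹ • ⇑E₆ - ((p : ℂ) ^ 5) • ⇑(V6 p)) :=
    (isQ_E6.smul _).sub ((isQ_V6 p).smul _)
  have e1 := qx_smul (2 : ℂ) ((hA.smul (-(p : ℂ) ^ 4)).add (hB.smul (1 / 504 : ℂ)))
  have e2 := qx_add (hA.smul (-(p : ℂ) ^ 4)) (hB.smul (1 / 504 : ℂ))
  have e3 := qx_smul (-(p : ℂ) ^ 4) hA
  have e4 := qx_mul hU (isQ_V4 p)
  have e5 := qx_smul (1 / 504 : ℂ) hB
  have e6 := qx_sub (isQ_E6.smul (p : ℂ)⁻¹) ((isQ_V6 p).smul ((p : ℂ) ^ 5))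
  have e7 := qx_smul (p : ℂ)⁻¹ isQ_E6
  have e8 := qx_smul ((p : ℂ) ^ 5) (isQ_V6 p)
  simp only [qx] at e1 e2 e3 e4 e5 e6 e7 e8
  rw [wp_F6fun p hf0, e1, e2, e3, e4, e5, e6, e7, e8, qx_V4, qx_V6, qx_heckeU hQ 2 hp0]

/-! ### Integral normalisation -/

open PowerSeries in
/-- `Σ σ₅(n) qⁿ` -/
def S5 : ℤ⟦X⟧ := PowerSeries.mk fun n => (σ 5 n : ℤ)

open PowerSeries in
theorem coeff_S5 (n : ℕ) : coeff n S5 = (σ 5 n : ℤ) := coeff_mk _ _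

open PowerSeries in
theorem Rz_eq : Rz = 1 - C 504 * S5 := by
  ext n
  rw [coeff_Rz, map_sub, coeff_C_mul, coeff_S5, coeff_one]
  split_ifs with h
  · subst h
    simp
  · ring

theorem sect_map {R S : Type*} [CommRing R] [CommRing S] (φ : R →+* S) (q i : ℕ)
    (h : PowerSeries R) :
    PowerSeriesNorm.sect q i (PowerSeries.map φ h) =
      PowerSeries.map φ (PowerSeriesNorm.sect q i h) := by
  ext n
  rw [PowerSeriesNorm.coeff_sect, PowerSeries.coeff_map, PowerSeries.coeff_map,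
    PowerSeriesNorm.coeff_sect]

/-- `p⁶ ≡ 1 mod 9` for a prime `p ≠ 3` -/
theorem nine_dvd (hp3 : p ≠ 3) : (9 : ℤ) ∣ (p : ℤ) ^ 6 - 1 := by
  have h3 : ¬ 3 ∣ p := fun h =>
    hp3 ((Nat.prime_dvd_prime_iff_eq Nat.prime_three hp.out).mp h).symm
  have h9 : p ^ 6 % 9 = 1 := by
    rw [Nat.pow_mod]
    have hlt : p % 9 < 9 := Nat.mod_lt _ (by norm_num)
    have h3' : p % 9 % 3 ≠ 0 := by
      rw [Nat.mod_mod_of_dvd _ (by norm_num : 3 ∣ 9)]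
      exact fun h => h3 (Nat.dvd_of_mod_eq_zero h)
    interval_cases (p % 9) <;> simp_all
  have h1 : ((p ^ 6 : ℕ) : ℤ) % 9 = 1 := by exact_mod_cast h9
  have h2 : ((p : ℤ) ^ 6 - 1) % 9 = 0 := by
    push_cast at h1
    omega
  exact Int.dvd_of_emod_eq_zero h2

open PowerSeries in
/-- the integral `q`-expansion of `G₆ = −56 p⁶ F₆` -/
def gZ (a : ℤ⟦X⟧) : ℤ⟦X⟧ :=
  C (-112 * (p : ℤ) ^ 6) * (a * Qz + (S5 - expand p hp.out.ne_zero S5))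

open PowerSeries in
/-- the integral series `p⁻⁵ qx (w_p G₆)` -/
def psiZ (a : ℤ⟦X⟧) : ℤ⟦X⟧ :=
  C (112 * (p : ℤ) ^ 5) * (PowerSeriesNorm.sect p 0 a * expand p hp.out.ne_zero Qz) +
    C (2 * (((p : ℤ) ^ 6 - 1) / 9)) +
    C 112 * (S5 - C ((p : ℤ) ^ 6) * expand p hp.out.ne_zero S5)

/-- `G₆ = −56 p⁶ F₆` -/
def G6fun (f0 : ℍ → ℂ) : ℍ → ℂ := ((-56 * (p : ℂ) ^ 6)) • F6fun p f0

theorem isMF_G6fun {f0 : ℍ → ℂ} (hf0 : IsMF (G0 p) 2 f0) : IsMF (G0 p) 6 (G6fun p f0) :=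
  (isMF_F6fun p hf0).smul _

open PowerSeries in
theorem map_gZ {f0 : ℍ → ℂ} (hf0 : IsQ f0) (a : ℤ⟦X⟧)
    (ha : a.map (Int.castRingHom ℂ) = qExpansion 1 f0) :
    (gZ p a).map (Int.castRingHom ℂ) = qExpansion 1 (G6fun p f0) := by
  have hF : IsQ (F6fun p f0) := by
    unfold F6fun
    exact ((hf0.mul isQ_E4).add (((isQ_V6 p).sub isQ_E6).smul _)).smul _
  have e1 := qx_smul (-56 * (p : ℂ) ^ 6) hF
  simp only [qx] at e1
  rw [G6fun, e1, qx_F6fun p hf0, ← ha, ← map_Qz, ← map_Rz, Rz_eq, gZ]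
  simp only [PowerSeries.smul_eq_C_mul, map_mul, map_add, map_sub, map_one, PowerSeries.map_C,
    map_expand, expand_C]
  set A := map (Int.castRingHom ℂ) a
  set Q := map (Int.castRingHom ℂ) Qz
  set S := map (Int.castRingHom ℂ) S5
  set ES := expand p hp.out.ne_zero S
  simp only [eq_intCast, Int.cast_neg, Int.cast_ofNat, Int.cast_pow, Int.cast_natCast]
  have h1 : (C (-112 : ℂ) : ℂ⟦X⟧) = C (-56) * C 2 := by
    rw [← map_mul]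
    norm_num
  have h2 : (C (1 / 504 : ℂ) : ℂ⟦X⟧) * C 504 = 1 := by
    rw [← map_mul, ← map_one (C (R := ℂ))]
    norm_num
  rw [h1]
  linear_combination (-(C (-56 : ℂ) * C ((p : ℂ) ^ 6) * C 2 * (S - ES))) * h2

open PowerSeries in
theorem map_C_mul_eq (c : ℤ) (x : ℤ⟦X⟧) :
    map (Int.castRingHom ℂ) (C c * x) = (c : ℂ) • map (Int.castRingHom ℂ) x := by
  rw [map_mul, PowerSeries.map_C, smul_eq_C_mul]
  rfl

open PowerSeries in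
theorem map_C_eq (c : ℤ) : map (Int.castRingHom ℂ) (C c) = (c : ℂ) • (1 : ℂ⟦X⟧) := by
  rw [PowerSeries.map_C, smul_eq_C_mul, mul_one]
  rfl

open PowerSeries in
/-- the algebraic identity behind `map_psiZ` -/
theorem psi_identity (U EQ S ES : ℂ⟦X⟧) (P m : ℂ) (hP : P ≠ 0) (hm : P ^ 6 = 9 * m + 1) :
    (112 * P ^ 5) • (U * EQ) + (2 * m) • (1 : ℂ⟦X⟧) + (112 : ℂ) • (S - (P ^ 6) • ES) =
      (P ^ 5)⁻¹ • ((-56 * P ^ 6) • ((2 : ℂ) • ((-P ^ 4) • (U * EQ) +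
        (1 / 504 : ℂ) • (P⁻¹ • ((1 : ℂ⟦X⟧) - (504 : ℂ) • S) - (P ^ 5) • (1 - (504 : ℂ) • ES))))) := by
  ext n
  simp only [map_add, map_sub, PowerSeries.coeff_smul, smul_eq_mul]
  have hm' : m = (P ^ 6 - 1) / 9 := by rw [hm]; ring
  rw [hm']
  field_simp
  ring

open PowerSeries in
theorem map_psiZ (hp3 : p ≠ 3) {f0 : ℍ → ℂ} (hf0 : IsMF (G0 p) 2 f0) (a : ℤ⟦X⟧)
    (ha : a.map (Int.castRingHom ℂ) = qExpansion 1 f0) :
    (psiZ p a).map (Int.castRingHom ℂ) =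
      ((p : ℂ) ^ 5)⁻¹ • qExpansion 1 (wp 6 p (G6fun p f0)) := by
  have hp0 : p ≠ 0 := hp.out.ne_zero
  have hpC : (p : ℂ) ≠ 0 := by exact_mod_cast hp0
  obtain ⟨m, hm⟩ := nine_dvd p hp3
  have hmC : (p : ℂ) ^ 6 = 9 * (m : ℂ) + 1 := by
    have : (((p : ℤ) ^ 6 - 1 : ℤ) : ℂ) = ((9 * m : ℤ) : ℂ) := by rw [hm]
    push_cast at this
    linear_combination this
  have e1 := qx_smul (-56 * (p : ℂ) ^ 6) (isQ_wp (isMF_F6fun p hf0))
  simp only [qx] at e1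
  rw [G6fun, wp_smul 6 hp0, e1, qx_wp_F6fun p hf0, ← ha, ← map_Qz, ← map_Rz, Rz_eq, psiZ, sect_map,
    hm, Int.mul_ediv_cancel_left _ (by norm_num : (9 : ℤ) ≠ 0)]
  rw [map_add, map_add, map_C_mul_eq, map_C_eq, map_C_mul_eq, map_sub, map_C_mul_eq, map_mul,
    map_expand, map_expand, map_sub, map_one, map_C_mul_eq, map_sub, map_one, map_smul]
  have := psi_identity (map (Int.castRingHom ℂ) (PowerSeriesNorm.sect p 0 a))
    (expand p hp.out.ne_zero (map (Int.castRingHom ℂ) Qz)) (map (Int.castRingHom ℂ) S5)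
    (expand p hp.out.ne_zero (map (Int.castRingHom ℂ) S5)) (p : ℂ) (m : ℂ) hpC hmC
  push_cast
  exact this

/-! ### The end statement (U3-c) -/

omit hp in
theorem isMF_of_cuspForm {k : ℤ} (f : CuspForm (G0 p) k) : IsMF (G0 p) k ⇑f :=
  ⟨{ toSlashInvariantForm := f.toSlashInvariantForm
     holo' := f.holo'
     bdd_at_cusps' := fun hc γ hγ => (f.zero_at_cusps' hc γ hγ).isBoundedAtImInfty }, rfl⟩

/-- **(U3-c)**: for a cusp form `f₀` of weight `2` and level `p ≠ 3` with integral `q`-expansion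
`a`, the form `G₆ = −56 p⁶ · 2 (f₀ E₄ + (E₆(p·) − E₆)/504) ∈ M₆(Γ₀(p))` has integral `q`-expansion
`gZ p a`, and `p⁻⁵ qx (w_p G₆)` is the integral series `psiZ p a`. -/
theorem exists_form6 (hp3 : p ≠ 3) (f0 : CuspForm (G0 p) 2) (a : PowerSeries ℤ)
    (ha : a.map (Int.castRingHom ℂ) = qExpansion 1 ⇑f0) :
    ∃ G : ModularForm (G0 p) 6,
      qExpansion 1 ⇑G = (gZ p a).map (Int.castRingHom ℂ) ∧
      ((p : ℂ) ^ 5)⁻¹ • qExpansion 1 (wp 6 p ⇑G) = (psiZ p a).map (Int.castRingHom ℂ) := by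
  have hMF := isMF_of_cuspForm p f0
  obtain ⟨G, hG⟩ := isMF_G6fun p hMF
  refine ⟨G, ?_, ?_⟩
  · rw [hG]
    exact (map_gZ p (isQ_of_isMF hMF) a ha).symm
  · rw [hG]
    exact (map_psiZ p hp3 hMF a ha).symm

/-! ### Reduction mod `3` of `gZ` -/

open PowerSeries DeltaMod3 in
theorem red3_Qz : red3 Qz = 1 := by
  ext n
  rw [red3, coeff_map, coeff_Qz, coeff_one]
  split_ifs with h
  · simp
  · have : ((240 : ℤ) : ZMod 3) = 0 := by decide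
    rw [map_mul, eq_intCast, this, zero_mul]

open PowerSeries DeltaMod3 in
theorem red3_S5 : red3 S5 = red3 sigmaSeries := by
  ext n
  rw [red3, coeff_map, coeff_map, coeff_S5, coeff_sigmaSeries, eq_intCast, eq_intCast,
    Int.cast_natCast, Int.cast_natCast]
  exact (ZMod.natCast_eq_natCast_iff _ _ 3).mpr
    ((SigmaCongr.sigma_five_modEq_thirty n).of_dvd (by norm_num))

open PowerSeries DeltaMod3 in
/-- if `a ≡ s + s(q^p) mod 3` then `gZ p a ≡ s mod 3` -/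
theorem red3_gZ (hp3 : p ≠ 3) (a : ℤ⟦X⟧)
    (ha3 : red3 a = red3 sigmaSeries + expand p hp.out.ne_zero (red3 sigmaSeries)) :
    red3 (gZ p a) = red3 sigmaSeries := by
  obtain ⟨m, hm⟩ := nine_dvd p hp3
  have hp6 : ((p : ℤ) ^ 6 : ℤ) = 9 * m + 1 := by linarith
  have hc : ((-112 * (p : ℤ) ^ 6 : ℤ) : ZMod 3) = 2 := by
    rw [hp6]
    push_cast
    have h9 : (9 : ZMod 3) = 0 := by decide
    have h112 : (-112 : ZMod 3) = 2 := by decide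
    rw [h9, h112, zero_mul, zero_add, mul_one]
  rw [gZ, map_mul red3, map_add red3, map_mul red3 a, map_sub red3, red3_Qz, mul_one]
  rw [show red3 (expand p hp.out.ne_zero S5) = expand p hp.out.ne_zero (red3 S5) from
    map_expand _ _ _ _, red3_S5, ha3]
  rw [show red3 (C (-112 * (p : ℤ) ^ 6)) = C (((-112 * (p : ℤ) ^ 6 : ℤ)) : ZMod 3) from
    PowerSeries.map_C _ _, hc]
  have h4 : (C (2 : ZMod 3) : (ZMod 3)⟦X⟧) * 2 = 1 := by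
    have : (2 : (ZMod 3)⟦X⟧) = C (2 : ZMod 3) := by
      rw [map_ofNat]
    rw [this, ← map_mul, show (2 : ZMod 3) * 2 = 1 by decide, map_one]
  linear_combination (red3 sigmaSeries) * h4

end Fermat.Agent.S16.UB3.Form6
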