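/-
PROJECT E (S16), slice E-UB3 (U3-c), end statement in the shape consumed by `UB3/Assembly`:
from `EisensteinCongruence p 3` with `p ≡ 2 mod 3`, a form `G ∈ M₆(Γ₀(p))` with integral
`q`-expansion `≡ s = Σ σ(n) qⁿ (mod 3)` and integral conjugate expansion `psiOf 6 p G`.
-/
import Mathlib
import Fermat.Agent.S16.UB3.Form6
import Fermat.Agent.S16.RedDefs
import Fermat.Agent.S16.ConjExpansion

set_option autoImplicit false

noncomputable section

namespace Fermat.Agent.S16.UB3.Form6EC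

open UpperHalfPlane CongruenceSubgroup ModularForm ModularFormClass
open Fermat.Agent.S20 Fermat.Agent.S23.QRing Fermat.Agent.S16.Trace
open Fermat.Agent.S16.UB3.Form6 Fermat.Agent.S16.UB3.DeltaMod3 Fermat.Agent.S16.ConjExpansion
open Fermat.Agent.S16.Reduction

open scoped ModularForm Manifold MatrixGroups ArithmeticFunction.sigma

/-- `σ(n) = σ'(n) + p σ(n/p) [p ∣ n]` -/
theorem sigma_eq_sigmaP_add {p : ℕ} (hp : p.Prime) (n : ℕ) :
    σ 1 n = sigmaP p n + (if p ∣ n then p * σ 1 (n / p) else 0) := by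
  rw [ArithmeticFunction.sigma_one_apply, sigmaP,
    ← Finset.sum_filter_not_add_sum_filter n.divisors (fun d => p ∣ d) (fun d => d)]
  congr 1
  split_ifs with h
  · obtain ⟨m, rfl⟩ := h
    rw [Nat.mul_div_cancel_left _ hp.pos, ArithmeticFunction.sigma_one_apply, Finset.mul_sum]
    rcases Nat.eq_zero_or_pos m with rfl | hm
    · simp
    refine Finset.sum_nbij' (fun d => d / p) (fun d => p * d) ?_ ?_ ?_ ?_ ?_
    · intro d hd
      rw [Finset.mem_filter, Nat.mem_divisors] at hd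
      obtain ⟨⟨hd1, hd2⟩, e, rfl⟩ := hd
      rw [Nat.mul_div_cancel_left _ hp.pos, Nat.mem_divisors]
      exact ⟨Nat.dvd_of_mul_dvd_mul_left hp.pos hd1, hm.ne'⟩
    · intro d hd
      rw [Nat.mem_divisors] at hd
      rw [Finset.mem_filter, Nat.mem_divisors]
      exact ⟨⟨Nat.mul_dvd_mul_left p hd.1, Nat.mul_ne_zero hp.ne_zero hd.2⟩, dvd_mul_right p d⟩
    · intro d hd
      rw [Finset.mem_filter] at hd
      exact Nat.mul_div_cancel' hd.2
    · intro d _
      exact Nat.mul_div_cancel_left _ hp.pos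
    · intro d hd
      rw [Finset.mem_filter] at hd
      exact (Nat.mul_div_cancel' hd.2).symm
  · refine Finset.sum_eq_zero fun d hd => ?_
    rw [Finset.mem_filter, Nat.mem_divisors] at hd
    exact absurd (hd.2.trans hd.1.1) h

variable (p : ℕ) [hp : Fact p.Prime]

/-- `σ'(n) ≡ σ(n) + σ(n/p) [p ∣ n] (mod 3)` for `p ≡ 2 mod 3` -/
theorem sigmaP_zmod3 (hp2 : p % 3 = 2) (n : ℕ) :
    ((sigmaP p n : ℕ) : ZMod 3) =
      ((σ 1 n : ℕ) : ZMod 3) + (if p ∣ n then ((σ 1 (n / p) : ℕ) : ZMod 3) else 0) := by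
  have h : ((σ 1 n : ℕ) : ZMod 3) =
      ((sigmaP p n + (if p ∣ n then p * σ 1 (n / p) else 0) : ℕ) : ZMod 3) :=
    congrArg (fun x : ℕ => (x : ZMod 3)) (sigma_eq_sigmaP_add hp.out n)
  have hp' : ((p : ℕ) : ZMod 3) = 2 := by
    have : ((p % 3 : ℕ) : ZMod 3) = (p : ZMod 3) := ZMod.natCast_mod p 3
    rw [← this, hp2]
    rfl
  split_ifs at h ⊢ with hd
  · push_cast at h
    rw [hp'] at h
    have h3 : (3 : ZMod 3) = 0 := by decide
    linear_combination (-1 : ZMod 3) * h - ((σ 1 (n / p) : ℕ) : ZMod 3) * h3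
  · rw [add_zero] at h ⊢
    exact h.symm

open PowerSeries in
/-- **(U3-c), end statement.** -/
theorem exists_form6 (hp2 : p % 3 = 2) (h : EisensteinCongruence p 3) :
    ∃ (G : ModularForm (G0 p) 6) (rootZ psiZ : ℤ⟦X⟧),
      rootZ.map (Int.castRingHom ℂ) = qx ⇑G ∧
      psiZ.map (Int.castRingHom ℂ) = psiOf 6 p ⇑G ∧
      red3 rootZ = red3 sigmaSeries := by
  have hp3 : p ≠ 3 := by
    rintro rfl
    norm_num at hp2
  have hpC : (p : ℂ) ≠ 0 := by exact_mod_cast hp.out.ne_zero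
  obtain ⟨f0, hf⟩ := h
  choose c hc hdiv using hf
  set a : ℤ⟦X⟧ := PowerSeries.mk c with ha_def
  have ha : a.map (Int.castRingHom ℂ) = qExpansion 1 ⇑f0 := by
    ext n
    rw [coeff_map, ha_def, coeff_mk, eq_intCast, ← hc n]
    rfl
  have ha3 : red3 a = red3 sigmaSeries + expand p hp.out.ne_zero (red3 sigmaSeries) := by
    ext n
    rw [map_add, coeff_expand]
    simp only [red3, coeff_map, ha_def, coeff_mk, coeff_sigmaSeries, eq_intCast, Int.cast_natCast]
    have h1 : ((c n : ℤ) : ZMod 3) = ((sigmaP p n : ℕ) : ZMod 3) := by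
      have := (ZMod.intCast_zmod_eq_zero_iff_dvd (c n - (sigmaP p n : ℤ)) 3).mpr (hdiv n)
      push_cast at this
      exact sub_eq_zero.mp this
    rw [h1, sigmaP_zmod3 p hp2 n]
  obtain ⟨G, hG1, hG2⟩ := Form6.exists_form6 p hp3 f0 a ha
  refine ⟨G, gZ p a, Form6.psiZ p a, hG1.symm, ?_, red3_gZ p hp3 a ha3⟩
  rw [psiOf_eq (IsMF.coe G), ← hG2]
  congr 1

end Fermat.Agent.S16.UB3.Form6EC
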