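import Mathlib
import Fermat.Agent.S16.PowerSeriesNorm
import Fermat.Agent.S16.ArtinSchreier

/-!
# S16 / E-UB3: the pure-algebra end of the `l = 3`, `p ≡ 2 mod 3` upper bound

`false_of_charpoly_coeff_mem_range`: over `ZMod 3`, for a non-zero series `s` without constant
term and any series `ψ`, the coefficients of `(Y - s) * charpoly (mulMatrix p ψ)` (the mod `3`
level-one characteristic polynomial delivered by `ConjExpansion`) cannot all be polynomials in
`s - s ^ 3`.  Proof: base change to an algebraic closure (a primitive `p`-th root of unity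
exists for `p ≠ 3`), substitute `q = t ^ p` (`PowerSeries.expand`), factor the characteristic
polynomial into the conjugates (`PowerSeriesNorm.prod_X_sub_C_rescale_eq`) and apply
`ArtinSchreier.false_of_coeff_mem_range`.
-/

set_option autoImplicit false

namespace Fermat.Agent.S16.UB3.Bridge

open PowerSeries Fermat.Agent.S16.PowerSeriesNorm Fermat.Agent.S16.ArtinSchreier

/-- `PowerSeries.map φ` commutes with `Polynomial.aeval`. -/
theorem map_aeval {R S : Type*} [CommRing R] [CommRing S] (φ : R →+* S) (x : R⟦X⟧)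
    (P : Polynomial R) :
    PowerSeries.map φ (Polynomial.aeval x P) = Polynomial.aeval (PowerSeries.map φ x) (P.map φ) := by
  rw [Polynomial.aeval_def, Polynomial.aeval_def, Polynomial.hom_eval₂, Polynomial.eval₂_map]
  congr 1
  ext r
  simp

/-- Version over a field of characteristic `3` containing a primitive `p`-th root of unity. -/
theorem false_of_charpoly_coeff_mem_range_of_primitiveRoot {F : Type*} [Field F] [CharP F 3]
    {p : ℕ} (hp : p ≠ 0) {ζ : F} (hζ : IsPrimitiveRoot ζ p) (s ψ : F⟦X⟧)
    (hs0 : constantCoeff s = 0) (hs : s ≠ 0)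
    (hcoeff : ∀ n : ℕ,
      ((Polynomial.X - Polynomial.C s) * (mulMatrix p ψ).charpoly).coeff n ∈
        Set.range ((Polynomial.aeval (s - s ^ 3) : Polynomial F →ₐ[F] F⟦X⟧) :
          Polynomial F →+* F⟦X⟧)) : False := by
  set e : F⟦X⟧ →ₐ[F] F⟦X⟧ := expand p hp with he
  set s' : F⟦X⟧ := e s with hs'
  have hfac : ((Polynomial.X - Polynomial.C s) * (mulMatrix p ψ).charpoly).map e.toRingHom
      = charPoly p ζ s' ψ := by
    rw [Polynomial.map_mul, Polynomial.map_sub, Polynomial.map_X, Polynomial.map_C, charPoly,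
      ← Fin.prod_univ_eq_prod_range
        (fun j => (Polynomial.X - Polynomial.C (PowerSeries.rescale (ζ ^ j) ψ))) p,
      prod_X_sub_C_rescale_eq p hp hζ ψ]
    rfl
  refine false_of_coeff_mem_range (Nat.pos_of_ne_zero hp) hζ.pow_eq_one s' ψ ?_ ?_ ?_ ?_
  · rw [hs', he, constantCoeff_expand, hs0]
  · intro h
    apply hs
    ext n
    have := congrArg (coeff (p * n)) h
    rw [hs', he, coeff_expand_mul] at this
    simpa using this
  · intro n hn
    rw [hs', he, coeff_expand_of_not_dvd p hp _ hn]
  · intro n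
    obtain ⟨P, hP⟩ := hcoeff n
    refine ⟨P, ?_⟩
    rw [← hfac, Polynomial.coeff_map, ← hP]
    change Polynomial.aeval (s' - s' ^ 3) P = e (Polynomial.aeval (s - s ^ 3) P)
    rw [← Polynomial.aeval_algHom_apply, map_sub, map_pow]

/-- **The pure-algebra end of `ub3`.**  Over `ZMod 3`, for a prime `p ≠ 3`, a non-zero series
`s` without constant term and any `ψ`: the coefficients of `(Y - s) * charpoly (mulMatrix p ψ)`
cannot all be polynomials in `s - s ^ 3`. -/
theorem false_of_charpoly_coeff_mem_range {p : ℕ} (hp : p.Prime) (hp3 : p ≠ 3)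
    (s ψ : (ZMod 3)⟦X⟧) (hs0 : constantCoeff s = 0) (hs : s ≠ 0)
    (hcoeff : ∀ n : ℕ,
      ((Polynomial.X - Polynomial.C s) * (mulMatrix p ψ).charpoly).coeff n ∈
        Set.range ((Polynomial.aeval (s - s ^ 3) : Polynomial (ZMod 3) →ₐ[ZMod 3] (ZMod 3)⟦X⟧) :
          Polynomial (ZMod 3) →+* (ZMod 3)⟦X⟧)) : False := by
  have : Fact (Nat.Prime 3) := ⟨Nat.prime_three⟩
  set K := AlgebraicClosure (ZMod 3) with hK
  set φ : ZMod 3 →+* K := algebraMap (ZMod 3) K with hφ
  have : CharP K 3 := charP_of_injective_algebraMap (algebraMap (ZMod 3) K).injective 3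
  have : NeZero ((p : ℕ) : ZMod 3) := by
    refine ⟨fun h => ?_⟩
    rw [ZMod.natCast_eq_zero_iff] at h
    exact hp3 ((Nat.prime_dvd_prime_iff_eq Nat.prime_three hp).mp h).symm
  obtain ⟨ζ, hζ⟩ := HasEnoughRootsOfUnity.exists_primitiveRoot K p
  refine false_of_charpoly_coeff_mem_range_of_primitiveRoot hp.ne_zero hζ
    (PowerSeries.map φ s) (PowerSeries.map φ ψ) ?_ ?_ ?_
  · rw [← coeff_zero_eq_constantCoeff_apply, coeff_map, coeff_zero_eq_constantCoeff_apply, hs0,
      map_zero]
  · intro h
    apply hs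
    ext n
    have := congrArg (coeff n) h
    rw [coeff_map, map_zero] at this
    rw [map_zero]
    exact (map_eq_zero_iff φ (algebraMap (ZMod 3) K).injective).mp this
  · intro n
    obtain ⟨P, hP⟩ := hcoeff n
    refine ⟨P.map φ, ?_⟩
    have h1 : (Polynomial.X - Polynomial.C (PowerSeries.map φ s)) *
        (mulMatrix p (PowerSeries.map φ ψ)).charpoly
        = ((Polynomial.X - Polynomial.C s) * (mulMatrix p ψ).charpoly).map (PowerSeries.map φ) := by
      rw [Polynomial.map_mul, Polynomial.map_sub, Polynomial.map_X, Polynomial.map_C,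
        charpoly_mulMatrix_map]
    rw [h1, Polynomial.coeff_map, ← hP]
    change Polynomial.aeval (PowerSeries.map φ s - PowerSeries.map φ s ^ 3) (P.map φ)
      = PowerSeries.map φ (Polynomial.aeval (s - s ^ 3) P)
    rw [map_aeval, map_sub, map_pow]

end Fermat.Agent.S16.UB3.Bridge
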