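import Mathlib
import Fermat.Agent.S16.UB3.DeltaMod3
import Fermat.Agent.S16.UB3.LevelOneMod3
import Fermat.Agent.S16.WT.QExpD

/-!
# S16 / E-UB3: glue between `DeltaMod3`, `LevelOneMod3` and the Ramanujan identities

* `red3_DeltaZ : red3 DeltaZ = red3 sigmaSeries - red3 sigmaSeries ^ 3` (the Artin–Schreier relation
  `Δ ≡ s - s³ (mod 3)` for the integer `q`-expansion `DeltaZ` of `LevelOneMod3`);
* `exists_poly_sigma_mod_three` : the integer `q`-expansion of a level-one form is, mod `3`, a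
  polynomial in `s̄ - s̄³` — the exact shape of the `hcoeff` hypothesis of
  `Core.false_of_charpoly_coeffs` / `Bridge.false_of_charpoly_coeff_mem_range`.
-/

set_option autoImplicit false

open UpperHalfPlane ModularForm ModularFormClass MatrixGroups EisensteinSeries
open scoped ArithmeticFunction.sigma

namespace Fermat.Agent.S16.UB3.DeltaZMod3

open PowerSeries Fermat.Agent.S16.WT Fermat.Agent.S16.UB3.DeltaMod3
  Fermat.Agent.S16.UB3.LevelOneMod3

theorem Pz_eq : Pz = 1 - 24 * sigmaSeries := by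
  ext n
  rw [coeff_Pz, map_sub, ← map_ofNat (C (R := ℤ)) 24, coeff_C_mul, coeff_sigmaSeries, coeff_one]
  split_ifs with h
  · subst h; simp
  · simp

theorem Qz_eq' : Qz = 1 + 240 * S3z := by
  rw [Qz_eq, map_ofNat]

theorem Rz_eq' : Rz = 1 - 504 * S5z := by
  rw [Rz_eq, map_ofNat]

theorem theta_eq (f : ℤ⟦X⟧) : DeltaMod3.theta f = WT.theta ℤ f := rfl

/-- **`Δ ≡ s - s³ (mod 3)`** for the integer `q`-expansion of the discriminant. -/
theorem red3_DeltaZ : red3 DeltaZ = red3 sigmaSeries - red3 sigmaSeries ^ 3 :=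
  delta_eq_sub_cube S3z S5z Pz Qz Rz DeltaZ Pz_eq Qz_eq' Rz_eq'
    (by rw [theta_eq]; exact QExpD.ramanujan_Pz) (by rw [theta_eq]; exact QExpD.ramanujan_Qz)
    DeltaZ_spec

/-- The integer `q`-expansion of a level-one modular form is, mod `3`, a polynomial in
`s̄ - s̄³`, `s = ∑ σ(n) qⁿ`. -/
theorem exists_poly_sigma_mod_three {k : ℤ} (F : ModularForm 𝒮ℒ k) (f : ℤ⟦X⟧)
    (hf : f.map (Int.castRingHom ℂ) = qExpansion 1 F) :
    ∃ P : Polynomial (ZMod 3),
      red3 f = Polynomial.aeval (red3 sigmaSeries - red3 sigmaSeries ^ 3) P := by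
  obtain ⟨P, hP⟩ := exists_poly_mod_three F f hf
  refine ⟨P, ?_⟩
  rw [← red3_DeltaZ]
  exact hP

theorem constantCoeff_red3_sigmaSeries : constantCoeff (red3 sigmaSeries) = 0 := by
  rw [← coeff_zero_eq_constantCoeff_apply, coeff_map, coeff_sigmaSeries]
  simp

theorem red3_sigmaSeries_ne_zero : red3 sigmaSeries ≠ 0 := by
  intro h
  have := congrArg (coeff 1) h
  rw [coeff_map, coeff_sigmaSeries] at this
  simp at this

end Fermat.Agent.S16.UB3.DeltaZMod3
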