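/-
PROJECT E (S16), slice E-UB3 (helper4): THE CASE `l = 3` OF THE EISENSTEIN UPPER BOUND.

`ub3 : p ≡ 2 (mod 3) → ¬ EisensteinCongruence p 3`: there is no weight-2 cusp form of prime level
`p ≡ 2 (mod 3)` with integral `q`-expansion `≡ σ' (mod 3)`.

Proof (Artin–Schreier): from such an `f₀` build the weight-6 form
`G = -56 p⁶ (2 f₀ E₄ + (2/504)(E₆(p·) - E₆))` of level `p` (`UB3/Form6`, `UB3/Form6EC`); its
`q`-expansion is `≡ s = ∑ σ(n) qⁿ (mod 3)` and its conjugates under `SL₂(ℤ)/Γ₀(p)` have an integral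
`q^{1/p}`-expansion.  The characteristic polynomial of `G` over level one has coefficients in
`𝔽₃[Δ̄]`, `Δ̄ = s̄ - s̄³` (`UB3/LevelOneMod3`, `UB3/DeltaMod3`, `UB3/DeltaGlue`); so `s̄ + 1`, `s̄ + 2`
are roots as well, which is impossible for the `p` conjugates `Ψ(ζʲ q^{1/p})`
(`ArtinSchreier`, `UB3/Core`, `UB3/Assembly`).
-/
import Fermat.Agent.S16.UB3.Assembly
import Fermat.Agent.S16.UB3.Form6EC

set_option autoImplicit false

namespace Fermat.Agent.S16.UB3.Main

open Fermat.Agent.S16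

/-- **The case `l = 3` of the upper bound**: no Eisenstein congruence modulo `3` at a prime level
`p ≡ 2 (mod 3)`. -/
theorem ub3 (p : ℕ) [Fact p.Prime] : p % 3 = 2 → ¬ Reduction.EisensteinCongruence p 3 := by
  intro hp3 hEC
  obtain ⟨G, rootZ, psiZ, h1, h2, h3⟩ := Form6EC.exists_form6 p hp3 hEC
  exact Assembly.false_of_form p (by rintro rfl; norm_num at hp3) G rootZ psiZ h1 h2 h3

end Fermat.Agent.S16.UB3.Main
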